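import Fermat.Agent.S55.LOC.Amb.Basic

/-!
# S55-LOC (CYC layer) : (C3) `Gal(Ω_p/ℚ_p) → (ℤ/p^m)ˣ` is surjective
-/

namespace Fermat.Agent.S55.LOC

variable {p : ℕ} [Fact p.Prime]

open Polynomial in
theorem Ram_isEisensteinAt (n : ℕ) :
    ((cyclotomic (p ^ (n + 1)) ℤ_[p]).comp (X + 1)).IsEisensteinAt
      (Ideal.span {(p : ℤ_[p])}) := by
  have hp : p.Prime := Fact.out
  have h := cyclotomic_prime_pow_comp_X_add_one_isEisensteinAt p n
  have hmap : ((cyclotomic (p ^ (n + 1)) ℤ).comp (X + 1)).map (Int.castRingHom ℤ_[p]) =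
      (cyclotomic (p ^ (n + 1)) ℤ_[p]).comp (X + 1) := by
    rw [map_comp, map_cyclotomic]
    simp
  have hmonic : ((cyclotomic (p ^ (n + 1)) ℤ).comp (X + 1)).Monic := by
    rw [show (X + 1 : ℤ[X]) = X + C 1 by simp]
    refine (cyclotomic.monic _ ℤ).comp (monic_X_add_C 1) fun h => ?_
    rw [natDegree_X_add_C] at h
    exact zero_ne_one h.symm
  rw [← hmap]
  refine Monic.isEisensteinAt_of_mem_of_notMem (hmonic.map _) ?_ ?_ ?_
  · rw [Ideal.ne_top_iff_one, Ideal.mem_span_singleton]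
    intro h1
    exact PadicInt.prime_p.not_isUnit (isUnit_of_dvd_one h1)
  · intro i hi
    rw [hmonic.natDegree_map] at hi
    have h1 := h.mem hi
    rw [Ideal.submodule_span_eq, Ideal.mem_span_singleton] at h1
    rw [coeff_map, Ideal.mem_span_singleton]
    have h2 := map_dvd (Int.castRingHom ℤ_[p]) h1
    simpa using h2
  · have h1 := h.notMem
    rw [Ideal.submodule_span_eq, Ideal.span_singleton_pow, Ideal.mem_span_singleton] at h1
    rw [coeff_map, Ideal.span_singleton_pow, Ideal.mem_span_singleton]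
    intro h2
    apply h1
    have h3 : ((p : ℤ_[p]) ^ 2) ∣ (((cyclotomic (p ^ (n + 1)) ℤ).comp (X + 1)).coeff 0 : ℤ_[p]) := by
      simpa using h2
    have h4 := (PadicInt.pow_p_dvd_int_iff 2 _).1 h3
    exact_mod_cast h4

open Polynomial in
theorem Ram_irreducible_int (n : ℕ) : Irreducible (cyclotomic (p ^ (n + 1)) ℤ_[p]) := by
  have hp : p.Prime := Fact.out
  have hmonic : ((cyclotomic (p ^ (n + 1)) ℤ_[p]).comp (X + 1)).Monic := by
    rw [show (X + 1 : ℤ_[p][X]) = X + C 1 by simp]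
    refine (cyclotomic.monic _ ℤ_[p]).comp (monic_X_add_C 1) fun h => ?_
    rw [natDegree_X_add_C] at h
    exact zero_ne_one h.symm
  have hdeg : 0 < ((cyclotomic (p ^ (n + 1)) ℤ_[p]).comp (X + 1)).natDegree := by
    rw [natDegree_comp, show (X + 1 : ℤ_[p][X]) = X + C 1 by simp, natDegree_X_add_C, mul_one,
      natDegree_cyclotomic]
    exact Nat.totient_pos.2 (pow_pos hp.pos _)
  have hprime : (Ideal.span {(p : ℤ_[p])}).IsPrime :=
    (Ideal.span_singleton_prime PadicInt.prime_p.ne_zero).2 PadicInt.prime_p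
  have h := (Ram_isEisensteinAt (p := p) n).irreducible hprime hmonic.isPrimitive hdeg
  have h2 : (algEquivAevalXAddC (1 : ℤ_[p])) (cyclotomic (p ^ (n + 1)) ℤ_[p]) =
      (cyclotomic (p ^ (n + 1)) ℤ_[p]).comp (X + 1) := by
    rw [algEquivAevalXAddC_apply, ← comp_eq_aeval]
    simp
  rw [← h2] at h
  exact (MulEquiv.irreducible_iff (algEquivAevalXAddC (1 : ℤ_[p]))).1 h

/-- the cyclotomic polynomial `Φ_{p^m}` is irreducible over `ℚ_p` (Eisenstein). -/
theorem irreducible_cyclotomic_padic (m : ℕ) :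
    Irreducible (Polynomial.cyclotomic (p ^ m) ℚ_[p]) := by
  rcases m with _ | n
  · simpa using Polynomial.irreducible_X_sub_C (1 : ℚ_[p])
  · rw [← Polynomial.map_cyclotomic (p ^ (n + 1)) (algebraMap ℤ_[p] ℚ_[p])]
    exact ((Polynomial.cyclotomic.monic _ ℤ_[p]).irreducible_iff_irreducible_map_fraction_map).1
      (Ram_irreducible_int n)

/-- (C3) -/
theorem exists_gal_root (m : ℕ) (a : (ZMod (p ^ m))ˣ) :
    ∃ τ : Gq p, ∀ ζ : Om p, ζ ^ (p ^ m) = 1 → τ ζ = ζ ^ (a : ZMod (p ^ m)).val := by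
  have hp : p.Prime := Fact.out
  have hN : NeZero (p ^ m) := ⟨pow_ne_zero _ hp.ne_zero⟩
  obtain ⟨ζ, hζ⟩ := HasEnoughRootsOfUnity.exists_primitiveRoot (Om p) (p ^ m)
  have hcop : ((a : ZMod (p ^ m)).val).Coprime (p ^ m) := ZMod.val_coe_unit_coprime a
  have hζa : IsPrimitiveRoot (ζ ^ (a : ZMod (p ^ m)).val) (p ^ m) := hζ.pow_of_coprime _ hcop
  have hirr := irreducible_cyclotomic_padic (p := p) m
  have hNK : NeZero ((p ^ m : ℕ) : ℚ_[p]) := ⟨by exact_mod_cast pow_ne_zero _ hp.ne_zero⟩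
  have h1 := hζ.minpoly_eq_cyclotomic_of_irreducible hirr
  have h2 := hζa.minpoly_eq_cyclotomic_of_irreducible hirr
  have halg : IsAlgebraic ℚ_[p] ζ := Algebra.IsAlgebraic.isAlgebraic ζ
  have hroot : Polynomial.aeval (ζ ^ (a : ZMod (p ^ m)).val) (minpoly ℚ_[p] ζ) = 0 := by
    rw [← h1, h2]
    exact minpoly.aeval _ _
  obtain ⟨σ, hσ⟩ := minpoly.exists_algEquiv_of_root' halg hroot
  refine ⟨σ, fun ξ hξ => ?_⟩
  obtain ⟨i, -, rfl⟩ := hζ.eq_pow_of_pow_eq_one hξ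
  rw [map_pow, hσ, ← pow_mul, ← pow_mul, mul_comm]

end Fermat.Agent.S55.LOC
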