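import Fermat.Agent.S55.LOC.Cyc.Base

/-!
# S55-LOC (CYC layer) : (C2) the action of `Gal(Ω_q/ℚ_q)` on `μ_{p^m}`, `p ≠ q`, is unramified:
`τ ζ = ζ^(q^(nr τ))`
-/

namespace Fermat.Agent.S55.LOC

open Fermat.Agent.S55.LDB

variable {q : ℕ} [Fact q.Prime]

/-- `τ ζ = ζ^(q^(nr_N τ))` as soon as `M ∣ q^N - 1`, `ζ^M = 1`. -/
theorem gal_root_eq (τ : Gq q) {M N : ℕ} (hN : N ≠ 0) (hdvd : M ∣ q ^ N - 1) {ζ : Om q}
    (hζ : ζ ^ M = 1) : τ ζ = ζ ^ (q ^ (nrU (⊤ : Subgroup (Gq q)) N τ).val) := by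
  have hq : 0 < q ^ N := pow_pos (Fact.out : q.Prime).pos N
  have h1 : ζ ^ (q ^ N - 1) = 1 := by
    obtain ⟨d, hd⟩ := hdvd
    rw [hd, pow_mul, hζ, one_pow]
  have h2 : ζ ^ (q ^ N) = ζ := by
    have e : q ^ N = (q ^ N - 1) + 1 := by omega
    rw [e, pow_succ, h1, one_mul]
  have hτ : τ ∈ (⊥ : LF q).fixingSubgroup := by
    rw [IntermediateField.fixingSubgroup_bot]
    exact Subgroup.mem_top τ
  have h3 := nrF_spec (⊥ : LF q) hN hτ ζ (by rw [QF_bot]; exact h2)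
  rw [QF_bot] at h3
  unfold nrU
  rw [fixF_top]
  exact h3

/-- (C2) packaged: `lam (cyc τ) = lam q · nr_{p^n} τ` for every homomorphism
`lam : (ℤ/p^m)ˣ → ℤ/p^n`.
[`N := p^n * φ(p^m)`, `k := (nr_N τ).val`: `c = q^k` in `(ℤ/p^m)ˣ` (test on a primitive root),
`lam c = k • lam q`, and `(k : ZMod (p^n)) = nr_{p^n} τ` by `nrU_cast`.] -/
theorem lam_cyc_eq {p : ℕ} (hp : p.Prime) (hpq : p ≠ q) (τ : Gq q) {m n : ℕ}
    (lam : (ZMod (p ^ m))ˣ →* Multiplicative (ZMod (p ^ n))) (c : (ZMod (p ^ m))ˣ)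
    (hc : ∀ ζ : Om q, ζ ^ (p ^ m) = 1 → τ ζ = ζ ^ (c : ZMod (p ^ m)).val)
    (qu : (ZMod (p ^ m))ˣ) (hqu : (qu : ZMod (p ^ m)) = (q : ZMod (p ^ m))) :
    (lam c).toAdd = (lam qu).toAdd * nrU (⊤ : Subgroup (Gq q)) (p ^ n) τ := by
  have hqp : q.Prime := Fact.out
  have hpm : p ^ m ≠ 0 := pow_ne_zero _ hp.ne_zero
  have hpn : p ^ n ≠ 0 := pow_ne_zero _ hp.ne_zero
  have hφ : Nat.totient (p ^ m) ≠ 0 := (Nat.totient_pos.2 (Nat.pos_of_ne_zero hpm)).ne'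
  have hN : p ^ n * Nat.totient (p ^ m) ≠ 0 := mul_ne_zero hpn hφ
  have hcop : Nat.Coprime q (p ^ m) :=
    Nat.Coprime.pow_right m ((Nat.coprime_primes hqp hp).2 (Ne.symm hpq))
  have hmod : q ^ (p ^ n * Nat.totient (p ^ m)) ≡ 1 [MOD p ^ m] := by
    rw [mul_comm, pow_mul]
    have := (Nat.ModEq.pow_totient hcop).pow (p ^ n)
    rwa [one_pow] at this
  have hdvd : p ^ m ∣ q ^ (p ^ n * Nat.totient (p ^ m)) - 1 :=
    (Nat.modEq_iff_dvd' (Nat.one_le_pow _ _ hqp.pos)).1 hmod.symm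
  obtain ⟨ζ, hζ⟩ := exists_primitiveRoot (q := q) (p ^ m) hpm
  have h1 := gal_root_eq τ hN hdvd hζ.pow_eq_one
  rw [hc ζ hζ.pow_eq_one] at h1
  have hfin : IsOfFinOrder ζ :=
    isOfFinOrder_iff_pow_eq_one.2 ⟨p ^ m, Nat.pos_of_ne_zero hpm, hζ.pow_eq_one⟩
  have h2 := hfin.pow_eq_pow_iff_modEq.1 h1
  rw [← hζ.eq_orderOf] at h2
  have : NeZero (p ^ m) := ⟨hpm⟩
  have : NeZero (p ^ n * Nat.totient (p ^ m)) := ⟨hN⟩
  have h3 : c = qu ^ (nrU (⊤ : Subgroup (Gq q)) (p ^ n * Nat.totient (p ^ m)) τ).val := by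
    apply Units.ext
    rw [Units.val_pow_eq_pow_val, hqu, ← Nat.cast_pow,
      ← (ZMod.natCast_eq_natCast_iff _ _ _).2 h2, ZMod.natCast_val, ZMod.cast_id', id]
  have h4 := nrU_cast (⊤ : Subgroup (Gq q)) isOpenSub_top' (p ^ n) (Nat.totient (p ^ m)) hpn hφ τ
    (Subgroup.mem_top τ)
  rw [h3, map_pow, toAdd_pow, nsmul_eq_mul, ← h4, ZMod.castHom_apply, ← ZMod.natCast_val,
    mul_comm]

end Fermat.Agent.S55.LOC
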