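import Fermat.Agent.S55.LOC.Cyc.Base

/-!
# S55-LOC (CYC layer) : an unramified extension `F/ℚ_q` of degree `N` is cut out by `nr_N`
-/

namespace Fermat.Agent.S55.LOC

open Fermat.Agent.S55.LDB

variable {q : ℕ} [Fact q.Prime]

theorem UnrKer_norm_q : ‖(q : Om q)‖ = (q : ℝ)⁻¹ := by
  have h := norm_unif_pow_ramIdx (⊥ : LF q) isUnif_bot
  have h1 : ramIdx (⊥ : LF q) = 1 := by
    have := ordF_q (⊥ : LF q)
    rw [ordF_unif isUnif_bot] at this
    exact_mod_cast this.symm
  rwa [h1, pow_one] at h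

/-- if the value group of `F` is `q^ℤ` then `q` is a uniformiser of `F`. -/
theorem isUnif_q_of_unram (F : LF q) (hunr : ∀ y ∈ F, y ≠ 0 → ∃ n : ℤ, ‖y‖ = (q : ℝ) ^ n) :
    IsUnif F (q : Om q) := by
  have hq1 : (1 : ℝ) < q := by exact_mod_cast (Fact.out : q.Prime).one_lt
  have hq0 : (q : Om q) ≠ 0 := by exact_mod_cast (Fact.out : q.Prime).ne_zero
  refine ⟨natCast_mem F q, hq0, ?_, fun x hx hx1 => ?_⟩
  · rw [UnrKer_norm_q]; exact inv_lt_one_of_one_lt₀ hq1
  · by_cases hx0 : x = 0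
    · simp [hx0]
    · obtain ⟨n, hn⟩ := hunr x hx hx0
      rw [hn] at hx1 ⊢
      have hn0 : n < 0 := by
        by_contra h
        push Not at h
        exact absurd hx1 (not_lt.2 (one_le_zpow₀ hq1.le h))
      rw [UnrKer_norm_q, ← zpow_neg_one]
      exact zpow_le_zpow_right₀ hq1.le (by omega)

theorem resDeg_bot : resDeg (⊥ : LF q) = 1 := by
  have h := QF_eq (⊥ : LF q)
  rw [QF_bot] at h
  have hq1 : 1 < q := (Fact.out : q.Prime).one_lt
  exact (Nat.pow_right_injective hq1 (by simpa using h)).symm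

/-- **key lemma**: `ker (nr_N) ≤ G_F` for `F/ℚ_q` unramified of degree `N`. -/
theorem mem_fixingSubgroup_of_nrU_eq_zero (F : LF q) [FiniteDimensional ℚ_[q] F]
    (hunr : ∀ y ∈ F, y ≠ 0 → ∃ n : ℤ, ‖y‖ = (q : ℝ) ^ n) {g : Gq q}
    (hg : nrU (⊤ : Subgroup (Gq q)) (Module.finrank ℚ_[q] F) g = 0) : g ∈ F.fixingSubgroup := by
  set N := Module.finrank ℚ_[q] F with hN
  have hN0 : N ≠ 0 := Module.finrank_pos.ne'
  have hunif := isUnif_q_of_unram F hunr
  have he : ramIdx F = 1 := by
    have := ordF_q F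
    rw [ordF_unif hunif] at this
    exact_mod_cast this.symm
  have hf : resDeg F = N := by
    have := ramIdx_mul_resDeg F
    rwa [he, one_mul] at this
  have htop : ∀ g : Gq q, g ∈ (⊥ : LF q).fixingSubgroup := by
    intro g
    rw [IntermediateField.fixingSubgroup_bot]; trivial
  -- the character
  let φ : Gq q →* Multiplicative (ZMod N) :=
    { toFun := fun g => Multiplicative.ofAdd (nrF (⊥ : LF q) N g)
      map_one' := by
        have h := nrF_mul (⊥ : LF q) hN0 (htop 1) (htop 1)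
        rw [mul_one] at h
        have h0 : nrF (⊥ : LF q) N 1 = 0 := by simpa using h
        rw [h0]; rfl
      map_mul' := fun a b => by
        rw [nrF_mul (⊥ : LF q) hN0 (htop a) (htop b)]; rfl }
  have hsurj : Function.Surjective φ := by
    obtain ⟨σ, _, hσ⟩ := nrF_surj (⊥ : LF q) N hN0
    intro x
    refine ⟨σ ^ (Multiplicative.toAdd x).val, ?_⟩
    rw [map_pow]
    change (Multiplicative.ofAdd (nrF (⊥ : LF q) N σ)) ^ _ = x
    haveI : NeZero N := ⟨hN0⟩
    rw [hσ, ← ofAdd_nsmul]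
    simp
  have hidx : φ.ker.index = N := by
    haveI : NeZero N := ⟨hN0⟩
    rw [Subgroup.index_ker, MonoidHom.range_eq_top.2 hsurj]
    simp [Nat.card_eq_fintype_card, ZMod.card]
  have hle : F.fixingSubgroup ≤ φ.ker := by
    intro s hs
    rw [MonoidHom.mem_ker]
    change Multiplicative.ofAdd (nrF (⊥ : LF q) N s) = 1
    rw [nrF_of_le (⊥ : LF q) F bot_le N (by rw [resDeg_bot, mul_one, hf]) N hN0 hs]
    simp
  have hidxF : F.fixingSubgroup.index = N :=
    (IntermediateField.finrank_eq_fixingSubgroup_index (Om q) F).symm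
  have hrel : F.fixingSubgroup.relIndex φ.ker = 1 := by
    have := Subgroup.relIndex_mul_index hle
    rw [hidx, hidxF] at this
    exact Nat.eq_of_mul_eq_mul_right (Nat.pos_of_ne_zero hN0) (by rw [this, one_mul])
  have hker : φ.ker ≤ F.fixingSubgroup := Subgroup.relIndex_eq_one.1 hrel
  apply hker
  rw [MonoidHom.mem_ker]
  change Multiplicative.ofAdd (nrF (⊥ : LF q) N g) = 1
  have : nrF (⊥ : LF q) N g = 0 := by
    have h := hg
    unfold nrU at h
    rwa [fixF_top] at h
  rw [this]; rfl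

end Fermat.Agent.S55.LOC
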