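import Fermat.Agent.S55.LOC.Amb.Formation

/-!
# S55-LOC (CYC layer) : the base field `ℚ_q = Ω^G` : uniformiser `q`, residue field `𝔽_q`,
`ord = padicValRat` on `ℚ`
-/

namespace Fermat.Agent.S55.LOC

open Fermat.Agent.S55.LDB

variable {q : ℕ} [Fact q.Prime]

theorem fixF_top : fixF (⊤ : Subgroup (Gq q)) = ⊥ := by
  exact InfiniteGalois.fixedField_bot

theorem isOpenSub_top' : IsOpenSub q (⊤ : Subgroup (Gq q)) := isOpenSub_top

theorem isUnif_bot : IsUnif (⊥ : LF q) (q : Om q) := by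
  refine ⟨natCast_mem _ q, Ord_q_ne_zero q, ?_, ?_⟩
  · rw [Ord_norm_q]
    exact inv_lt_one_of_one_lt₀ (by exact_mod_cast (Fact.out : q.Prime).one_lt)
  · intro x hx hx1
    obtain ⟨y, rfl⟩ := IntermediateField.mem_bot.1 hx
    rw [PadicAlgCl.norm_extends] at hx1 ⊢
    rw [Ord_norm_q]
    have h := (Padic.norm_le_pow_iff_norm_lt_pow_add_one y (-1)).2 (by simpa using hx1)
    simpa using h

theorem QF_bot : QF (⊥ : LF q) = q := by
  have h := ramIdx_mul_resDeg (⊥ : LF q)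
  rw [IntermediateField.finrank_bot] at h
  have h1 : resDeg (⊥ : LF q) = 1 := Nat.eq_one_of_mul_eq_one_left h
  rw [QF_eq, h1, pow_one]

theorem norm_ratCast (x : ℚ) (hx : x ≠ 0) : ‖(x : Om q)‖ = ‖(q : Om q)‖ ^ padicValRat q x := by
  have h : (x : Om q) = algebraMap ℚ_[q] (PadicAlgCl q) (x : ℚ_[q]) := by simp
  rw [h, PadicAlgCl.norm_extends, Ord_norm_q, Padic.eq_padicNorm, padicNorm.eq_zpow_of_nonzero hx]
  push_cast
  rw [zpow_neg, inv_zpow]

/-- (C1) -/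
theorem ordU_top_of_eq_rat (a : (Om q)ˣ) (x : ℚ) (h : (a : Om q) = (x : Om q)) :
    ordU (⊤ : Subgroup (Gq q)) a = padicValRat q x := by
  have hx : x ≠ 0 := by
    rintro rfl
    simp at h
  rw [ordU, fixF_top, h]
  exact ordF_eq isUnif_bot (norm_ratCast x hx)

/-- `A^G = ℚ_qˣ`. -/
theorem fix_top_iff {a : (Om q)ˣ} :
    Fix (⊤ : Subgroup (Gq q)) a ↔ ∃ y : ℚ_[q], algebraMap ℚ_[q] (Om q) y = (a : Om q) := by
  rw [fix_iff, fixF_top, IntermediateField.mem_bot]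
  rfl

end Fermat.Agent.S55.LOC
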