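import Fermat.Agent.S55.LOC.Nrm.Open

/-!
# S55-LOC (CYC layer) : (C4) `p^n`-th powers in `ℚ_p`, (C5) `ℚˣ` is dense in `ℚ_qˣ/ℓ`
-/

namespace Fermat.Agent.S55.LOC

open IsLocalRing

section C4

variable {p : ℕ} [Fact p.Prime]

theorem Pow_unitFil_pow (n : ℕ) (v : ℤ_[p]ˣ) (hv : v ∈ unitFil ℤ_[p] (n + 2)) :
    ∃ u ∈ unitFil ℤ_[p] 2, u ^ (p ^ n) = v := by
  have he : Ideal.span {((p : ℕ) : ℤ_[p])} = maximalIdeal ℤ_[p] ^ 1 := by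
    rw [pow_one, PadicInt.maximalIdeal_eq_span_p]
  induction n generalizing v with
  | zero => exact ⟨v, hv, by simp⟩
  | succ n ih =>
    obtain ⟨u, hu, hpow⟩ := exists_pow_eq_of_mem_unitFil (O := ℤ_[p]) (Fact.out : p.Prime) he
      (n := n + 2) (by omega) (v := v) (by simpa [add_assoc, add_comm, add_left_comm] using hv)
    obtain ⟨w, hw, hwpow⟩ := ih u hu
    exact ⟨w, hw, by rw [pow_succ, pow_mul, hwpow, hpow]⟩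

/-- `1 + p^(n+2) ℤ_p ⊆ (1 + p^2 ℤ_p)^(p^n)`  (iterate `exists_pow_eq_of_mem_unitFil`, `O = ℤ_[p]`,
`e = 1`). -/
theorem exists_pow_eq_of_norm_sub_one_le (n : ℕ) (x : ℚ_[p])
    (h : ‖x - 1‖ ≤ (p : ℝ) ^ (-(n + 2 : ℤ))) : ∃ w : ℚ_[p], w ^ (p ^ n) = x := by
  have hp1 : (1 : ℝ) < p := by exact_mod_cast (Fact.out : p.Prime).one_lt
  have hle1 : (p : ℝ) ^ (-(n + 2 : ℤ)) ≤ 1 :=
    zpow_le_one_of_nonpos₀ hp1.le (by omega)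
  let y : ℤ_[p] := ⟨x - 1, h.trans hle1⟩
  have hy : y ∈ maximalIdeal ℤ_[p] ^ (n + 2) := by
    rw [PadicInt.maximalIdeal_eq_span_p, Ideal.span_singleton_pow,
      ← PadicInt.norm_le_pow_iff_mem_span_pow]
    have : ‖y‖ = ‖x - 1‖ := rfl
    rw [this]
    push_cast
    exact h
  obtain ⟨v, hv, hvy⟩ := exists_unitFil_eq_one_add (n := n + 2) (by omega) hy
  obtain ⟨u, _, hu⟩ := Pow_unitFil_pow n v hv
  refine ⟨((u : ℤ_[p]) : ℚ_[p]), ?_⟩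
  have h3 : ((u : ℤ_[p]) : ℚ_[p]) ^ (p ^ n) = ((v : ℤ_[p]) : ℚ_[p]) := by
    rw [← hu]; simp
  rw [h3, hvy]
  push_cast
  simp [y]

/-- (C4) [Bezout `a (p-1) + b p^n = 1`: `x = (x^(p-1))^a (x^b)^(p^n)`.] -/
theorem exists_pow_eq_of_norm_pow_sub_one_le (n : ℕ) (x : ℚ_[p]) (hx : x ≠ 0)
    (h : ‖x ^ (p - 1) - 1‖ ≤ (p : ℝ) ^ (-(n + 2 : ℤ))) : ∃ w : ℚ_[p], w ^ (p ^ n) = x := by
  obtain ⟨w₁, hw₁⟩ := exists_pow_eq_of_norm_sub_one_le n (x ^ (p - 1)) h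
  have hp : p.Prime := Fact.out
  have hcop : Nat.Coprime (p - 1) (p ^ n) := by
    apply Nat.Coprime.pow_right
    have : Nat.Coprime (p - 1) (p - 1 + 1) := by simp
    rwa [Nat.sub_add_cancel hp.one_le] at this
  have hb : IsCoprime ((p - 1 : ℕ) : ℤ) ((p ^ n : ℕ) : ℤ) := Nat.isCoprime_iff_coprime.2 hcop
  obtain ⟨a, b, hab⟩ := hb
  have hw₁0 : w₁ ≠ 0 := by
    intro h0
    rw [h0, zero_pow (pow_ne_zero _ hp.ne_zero)] at hw₁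
    exact pow_ne_zero _ hx hw₁.symm
  refine ⟨w₁ ^ a * x ^ b, ?_⟩
  have h1 : x = x ^ (a * ((p - 1 : ℕ) : ℤ) + b * ((p ^ n : ℕ) : ℤ)) := by rw [hab, zpow_one]
  rw [mul_pow]
  conv_rhs => rw [h1, zpow_add₀ hx]
  congr 1
  · rw [← zpow_natCast (w₁ ^ a), ← zpow_mul, mul_comm a, zpow_mul, zpow_natCast, hw₁,
      ← zpow_natCast x, ← zpow_mul, mul_comm]
  · rw [← zpow_natCast (x ^ b), ← zpow_mul]

end C4

section C5

variable {q : ℕ} [Fact q.Prime]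

/-- (C5) -/
theorem exists_rat_mul_pow (l : ℕ) (hl : l.Prime) (b : ℚ_[q]) (hb : b ≠ 0) :
    ∃ (x : ℚ) (w : ℚ_[q]), x ≠ 0 ∧ w ≠ 0 ∧ b = (x : ℚ_[q]) * w ^ l := by
  obtain ⟨ε, hε, H⟩ := exists_pow_eq_of_norm_sub_one_lt ℚ_[q] l hl
  have hb0 : 0 < ‖b‖ := norm_pos_iff.2 hb
  obtain ⟨x, hx⟩ := Padic.rat_dense q b (ε := min ε 1 * ‖b‖) (by positivity)
  have hlt : ‖b - x‖ < ‖b‖ := by
    calc ‖b - x‖ < min ε 1 * ‖b‖ := hx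
      _ ≤ 1 * ‖b‖ := by gcongr; exact min_le_right _ _
      _ = ‖b‖ := one_mul _
  have hxb : ‖(x : ℚ_[q])‖ = ‖b‖ := by
    have h1 : (x : ℚ_[q]) = b + -(b - x) := by ring
    have h2 : ‖b‖ ≠ ‖-(b - (x : ℚ_[q]))‖ := by rw [norm_neg]; exact hlt.ne'
    rw [h1, IsUltrametricDist.norm_add_eq_max_of_norm_ne_norm h2, norm_neg]
    exact max_eq_left hlt.le
  have hx0 : (x : ℚ_[q]) ≠ 0 := by
    rw [← norm_pos_iff, hxb]; exact hb0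
  have hx0' : x ≠ 0 := by
    rintro rfl; simp at hx0
  have h2 : ‖b / x - 1‖ < ε := by
    have : b / x - 1 = (b - x) / x := by field_simp
    rw [this, norm_div, hxb, div_lt_iff₀ hb0]
    calc ‖b - x‖ < min ε 1 * ‖b‖ := hx
      _ ≤ ε * ‖b‖ := by gcongr; exact min_le_left _ _
  obtain ⟨w, hw⟩ := H _ h2
  refine ⟨x, w, hx0', ?_, ?_⟩
  · rintro rfl
    rw [zero_pow hl.ne_zero] at hw
    exact (div_ne_zero hb hx0) hw.symm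
  · rw [hw]; field_simp

end C5

end Fermat.Agent.S55.LOC
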